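/-
Row 37 HARD (Ihara avoidance, single-sided route) — GAL leaf "(NU) ⇒ type ψ", algebra.
helper474 (2nd independent owner).  Mathlib only.  All proofs complete.

`Σ, Φ` 2×2 matrices over a domain `V`, `det Σ = 1`, `Φ Σ = Σ^q Φ`, `det Φ ≠ 0`, `Σ ≡ 1` modulo a
proper ideal `m ∋ p`, `p` an odd prime, `q - 1 = p^K · n'` with `p ∤ n'`, `K ≥ 1`, and `ζ ∈ V` a
primitive `p^K`-th root of unity.  Then `tr Σ = ζ^j + ζ^(p^K - j)` for some `j ≤ p^K`
(`trace_eq_of_conj`), the characteristic polynomial of `Σ` is `(X - ζ^j)(X - ζ^(-j))`, and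
`ζ^j ≠ 1` unless `tr Σ = 2` (`Σ` unipotent).
-/
import Mathlib

set_option autoImplicit false
set_option linter.style.haveILetI false
set_option linter.unusedSectionVars false

namespace Fermat.Agent.S38.IA.H474

open Matrix Polynomial

section Recurrence

variable {R : Type*} [CommRing R]

/-- Cayley–Hamilton for a 2×2 matrix of determinant one: `M² = (tr M) M - 1`. -/
theorem sq_eq_of_det_eq_one (M : Matrix (Fin 2) (Fin 2) R) (hdet : M.det = 1) :
    M ^ 2 = M.trace • M - 1 := by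
  rw [Matrix.det_fin_two] at hdet
  ext i j
  fin_cases i <;> fin_cases j <;>
    simp [pow_two, Matrix.mul_apply, Fin.sum_univ_two, Matrix.trace_fin_two] <;>
    first | linear_combination hdet | linear_combination -hdet | ring

/-- `tr (M^n) = s^n + s'^n` when `s + s' = tr M`, `s s' = 1 = det M`. -/
theorem trace_pow_eq (M : Matrix (Fin 2) (Fin 2) R) (hdet : M.det = 1) (s s' : R)
    (hsum : s + s' = M.trace) (hprod : s * s' = 1) (n : ℕ) :
    (M ^ n).trace = s ^ n + s' ^ n := by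
  have hsq := sq_eq_of_det_eq_one M hdet
  have key : ∀ n : ℕ, (M ^ n).trace = s ^ n + s' ^ n ∧
      (M ^ (n + 1)).trace = s ^ (n + 1) + s' ^ (n + 1) := by
    intro n
    induction n with
    | zero =>
      refine ⟨?_, ?_⟩
      · rw [pow_zero, pow_zero, pow_zero, Matrix.trace_one]
        simp
        norm_num
      · rw [zero_add, pow_one, pow_one, pow_one, hsum]
    | succ n ih =>
      refine ⟨ih.2, ?_⟩
      have h1 : M ^ (n + 1 + 1) = M.trace • M ^ (n + 1) - M ^ n := by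
        rw [pow_succ' M (n + 1), pow_succ' M n, ← mul_assoc, ← pow_two, hsq, Matrix.sub_mul,
          Matrix.smul_mul, one_mul, ← pow_succ' M n]
      rw [h1, Matrix.trace_sub, Matrix.trace_smul, ih.1, ih.2, smul_eq_mul, ← hsum]
      have e1 : s ^ (n + 1 + 1) = s * s ^ (n + 1) := pow_succ' s (n + 1)
      have e2 : s' ^ (n + 1 + 1) = s' * s' ^ (n + 1) := pow_succ' s' (n + 1)
      have e3 : s ^ (n + 1) = s * s ^ n := pow_succ' s n
      have e4 : s' ^ (n + 1) = s' * s' ^ n := pow_succ' s' n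
      rw [e1, e2]
      have e5 : s * s' * s' ^ n = s' ^ n := by rw [hprod, one_mul]
      have e6 : s' * s * s ^ n = s ^ n := by rw [mul_comm s' s, hprod, one_mul]
      calc (s + s') * (s ^ (n + 1) + s' ^ (n + 1)) - (s ^ n + s' ^ n)
          = s * s ^ (n + 1) + s' * s' ^ (n + 1) + (s * s' * s' ^ n - s' ^ n)
            + (s' * s * s ^ n - s ^ n) := by rw [e3, e4]; ring
        _ = s * s ^ (n + 1) + s' * s' ^ (n + 1) := by rw [e5, e6]; ring
  exact (key n).1

/-- Conjugate matrices (by a matrix of non-zero-divisor determinant) have the same trace. -/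
theorem trace_eq_of_mul_eq_mul {M N Φ : Matrix (Fin 2) (Fin 2) R}
    (hΦ : Φ.det ∈ nonZeroDivisors R) (h : Φ * M = N * Φ) : N.trace = M.trace := by
  have h1 : (Φ * M * Φ.adjugate).trace = Φ.det * M.trace := by
    rw [Matrix.trace_mul_comm, ← mul_assoc, Matrix.adjugate_mul, Matrix.smul_mul, one_mul,
      Matrix.trace_smul, smul_eq_mul]
  have h2 : (N * Φ * Φ.adjugate).trace = Φ.det * N.trace := by
    rw [mul_assoc, Matrix.mul_adjugate, Matrix.mul_smul, mul_one, Matrix.trace_smul, smul_eq_mul]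
  rw [h, h2] at h1
  exact ((mul_cancel_left_mem_nonZeroDivisors hΦ).mp h1).symm ▸ rfl

end Recurrence

section Factor

variable {R : Type*} [CommRing R]

theorem key_factor (s s' x y : R) (hprod : s * s' = 1) (h1 : s + s' = x + y)
    (e3 : y * x = 1) : (x * s' - 1) * (x * s - 1) = 0 := by
  linear_combination (x ^ 2) * hprod - x * h1 - e3

end Factor

section Order

variable {B : Type*} [CommRing B] [IsDomain B]

/-- In a domain, a root of unity `s` of order dividing `p^a n'` (`p ∤ n'`) which is `≡ 1` modulo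
a prime ideal containing `p` satisfies `s^(p^a) = 1`. -/
theorem pow_prime_pow_eq_one {p a n' : ℕ} (hp : p.Prime) (hn' : ¬ p ∣ n') (m' : Ideal B)
    [m'.IsPrime] (hpm : (p : B) ∈ m') {s : B} (hs1 : s - 1 ∈ m')
    (hs : s ^ (p ^ a * n') = 1) : s ^ (p ^ a) = 1 := by
  set u := s ^ (p ^ a) with hu_def
  have hu : u ^ n' = 1 := by rw [hu_def, ← pow_mul]; exact hs
  have hgeom : (∑ i ∈ Finset.range n', u ^ i) * (u - 1) = 0 := by
    rw [geom_sum_mul, hu, sub_self]
  rcases mul_eq_zero.mp hgeom with h | h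
  · exfalso
    have hf1 : Ideal.Quotient.mk m' s = 1 := by
      have := Ideal.Quotient.eq.mpr hs1
      simpa using this
    have hfu : Ideal.Quotient.mk m' u = 1 := by rw [hu_def, map_pow, hf1, one_pow]
    have hn0 : ((n' : ℕ) : B ⧸ m') = 0 := by
      have h2 := congrArg (Ideal.Quotient.mk m') h
      rw [map_sum, map_zero] at h2
      simp only [map_pow, hfu, one_pow, Finset.sum_const, Finset.card_range, nsmul_eq_mul,
        mul_one] at h2
      exact h2
    have hp0 : ((p : ℕ) : B ⧸ m') = 0 := by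
      have := Ideal.Quotient.eq_zero_iff_mem.mpr hpm
      simpa using this
    have hcop : Nat.Coprime n' p := (Nat.Coprime.symm ((Nat.Prime.coprime_iff_not_dvd hp).mpr hn'))
    obtain ⟨x, y, hxy⟩ := (Nat.isCoprime_iff_coprime.mpr hcop)
    have h3 := congrArg (fun z : ℤ => (z : B ⧸ m')) hxy
    simp only [Int.cast_add, Int.cast_mul, Int.cast_natCast, Int.cast_one, hn0, hp0, mul_zero,
      add_zero] at h3
    exact zero_ne_one h3
  · exact sub_eq_zero.mp h

end Order

section Main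

variable {V : Type*} [CommRing V] [IsDomain V]

/-- **(NU) ⇒ type ψ, trace form.**  `Σ, Φ` over a domain `V`, `det Σ = 1`, `Φ Σ = Σ^q Φ`,
`det Φ ≠ 0`, `Σ ≡ 1` modulo a proper ideal `m ∋ p`, `p` odd, `q = p^K n' + 1` with `p ∤ n'`,
`ζ` a primitive `p^K`-th root of unity in `V`.  Then `tr Σ = ζ^j + ζ^(p^K - j)` for some
`j < p^K`. -/
theorem trace_eq_of_conj {p q K n' : ℕ} (hp : p.Prime) (hp2 : p ≠ 2) (hK : 0 < K)
    (hq : q = p ^ K * n' + 1) (hn' : ¬ p ∣ n')
    (m : Ideal V) (hm : m ≠ ⊤) (hpm : (p : V) ∈ m)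
    (Sg Φ : Matrix (Fin 2) (Fin 2) V) (hdet : Sg.det = 1) (hΦ : Φ.det ≠ 0)
    (hconj : Φ * Sg = Sg ^ q * Φ) (hSg : ∀ i j, (Sg - 1) i j ∈ m)
    (ζ : V) (hζ : IsPrimitiveRoot ζ (p ^ K)) :
    ∃ j : ℕ, j < p ^ K ∧ Sg.trace = ζ ^ j + ζ ^ (p ^ K - j) := by
  classical
  set t := Sg.trace with ht
  -- `t ≡ 2 mod m`
  have ht2 : t - 2 ∈ m := by
    have h0 := hSg 0 0
    have h1 := hSg 1 1
    have e : t - 2 = (Sg - 1) 0 0 + (Sg - 1) 1 1 := by
      rw [ht, Matrix.trace_fin_two]
      simp [Matrix.sub_apply]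
      ring
    rw [e]
    exact m.add_mem h0 h1
  -- trace of the `q`-th power
  have htq : (Sg ^ q).trace = t :=
    trace_eq_of_mul_eq_mul (mem_nonZeroDivisors_of_ne_zero hΦ) hconj
  -- the algebraic closure
  let Ω := AlgebraicClosure (FractionRing V)
  let ι : V →+* Ω := algebraMap V Ω
  have hι : Function.Injective ι := by
    have h1 : Function.Injective (algebraMap V (FractionRing V)) := IsFractionRing.injective _ _
    have h2 : Function.Injective (algebraMap (FractionRing V) Ω) := RingHom.injective _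
    have : (ι : V → Ω) = (algebraMap (FractionRing V) Ω) ∘ (algebraMap V (FractionRing V)) := by
      funext x
      exact IsScalarTower.algebraMap_apply V (FractionRing V) Ω x
    rw [this]
    exact h2.comp h1
  -- a root `s` of `X² - tX + 1`
  obtain ⟨s, hs⟩ : ∃ s : Ω, s ^ 2 - ι t * s + 1 = 0 := by
    have hdeg : (C (1 : Ω) * X ^ 2 + C (- ι t) * X + C 1 : Polynomial Ω).degree ≠ 0 := by
      rw [Polynomial.degree_quadratic one_ne_zero]
      norm_num
    obtain ⟨s, hs⟩ := IsAlgClosed.exists_root _ hdeg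
    refine ⟨s, ?_⟩
    rw [IsRoot.def] at hs
    simp only [eval_add, eval_mul, eval_C, eval_pow, eval_X] at hs
    linear_combination hs
  obtain ⟨s', hs'⟩ : ∃ s' : Ω, s' = ι t - s := ⟨_, rfl⟩
  have hsum : s + s' = ι t := by rw [hs']; ring
  have hprod : s * s' = 1 := by rw [hs']; linear_combination -hs
  -- traces of powers over `Ω`
  have hdetΩ : (Sg.map ι).det = 1 := by
    rw [← RingHom.mapMatrix_apply, ← RingHom.map_det, hdet, map_one]
  have htrΩ : (Sg.map ι).trace = ι t := by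
    rw [Matrix.trace_fin_two, ht, Matrix.trace_fin_two]
    simp
  have htrpow : ∀ n : ℕ, ι ((Sg ^ n).trace) = s ^ n + s' ^ n := by
    intro n
    have h1 := trace_pow_eq (Sg.map ι) hdetΩ s s' (hsum.trans htrΩ.symm) hprod n
    rw [← h1]
    have h2 : (Sg.map ι) ^ n = (Sg ^ n).map ι := by
      rw [← RingHom.mapMatrix_apply, ← map_pow, RingHom.mapMatrix_apply]
    rw [h2, Matrix.trace_fin_two, Matrix.trace_fin_two]
    simp
  have hq1 : 1 ≤ q := by rw [hq]; exact Nat.le_add_left 1 _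
  -- the key equation
  have hkey : (s ^ (q - 1) - 1) * (s ^ (q + 1) - 1) = 0 := by
    have h1 := htrpow q
    rw [htq, ← hsum] at h1
    have e1 : s ^ (q + 1) = s ^ q * s := pow_succ s q
    have e2 : s ^ q = s ^ (q - 1) * s := by
      rw [← pow_succ, Nat.sub_add_cancel hq1]
    have e3 : s' ^ q * s ^ q = 1 := by rw [← mul_pow, mul_comm, hprod, one_pow]
    have e4 : s ^ (q - 1) = s ^ q * s' := by
      rw [e2, mul_assoc, hprod, mul_one]
    rw [e4, e1]
    exact key_factor s s' (s ^ q) (s' ^ q) hprod h1 e3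
  -- the integral closure of `V` in `Ω`
  have hsint : IsIntegral V s := by
    refine ⟨X ^ 2 - C t * X + 1, ?_, ?_⟩
    · have h1 : (X ^ 2 - C t * X + 1 : Polynomial V) = X ^ 2 + (C (-t) * X + C 1) := by
        rw [map_neg, map_one]; ring
      rw [h1]
      refine Polynomial.monic_X_pow_add ?_
      refine lt_of_le_of_lt (Polynomial.degree_linear_le) ?_
      norm_num
    · simp only [eval₂_add, eval₂_sub, eval₂_mul, eval₂_pow, eval₂_X, eval₂_C, eval₂_one]
      exact hs
  let B := integralClosure V Ω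
  let sB : B := ⟨s, hsint⟩
  obtain ⟨M, hM, hmM⟩ := Ideal.exists_le_maximal m hm
  haveI := hM
  have hinjB : Function.Injective (algebraMap V B) := by
    intro x y hxy
    apply hι
    have := congrArg (fun b : B => (b : Ω)) hxy
    exact this
  have hker : RingHom.ker (algebraMap V B) ≤ M := by
    rw [(RingHom.injective_iff_ker_eq_bot _).mp hinjB]
    exact bot_le
  obtain ⟨m', hm'max, hm'⟩ := Ideal.exists_ideal_over_maximal_of_isIntegral (S := B) M hker
  haveI hm'prime : m'.IsPrime := hm'max.isPrime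
  have hmem : ∀ x ∈ m, algebraMap V B x ∈ m' := fun x hx => by
    have : x ∈ m'.comap (algebraMap V B) := hm'.symm ▸ hmM hx
    exact this
  have hpB : ((p : ℕ) : B) ∈ m' := by
    have := hmem _ hpm
    simpa using this
  have hsB1 : sB - 1 ∈ m' := by
    have h1 : (sB - 1) ^ 2 = algebraMap V B (t - 2) * sB := by
      apply Subtype.ext
      change (s - 1) ^ 2 = ι (t - 2) * s
      rw [map_sub, map_ofNat]
      linear_combination hs
    have h2 : (sB - 1) ^ 2 ∈ m' := by
      rw [h1]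
      exact m'.mul_mem_right _ (hmem _ ht2)
    exact hm'prime.mem_of_pow_mem 2 h2
  have hcoe_pow : ∀ n : ℕ, ((sB ^ n : B) : Ω) = s ^ n := fun n => rfl
  have hsBpow : sB ^ (p ^ K) = 1 := by
    rcases mul_eq_zero.mp hkey with h | h
    · have h' : sB ^ (p ^ K * n') = 1 := by
        apply Subtype.ext
        rw [hcoe_pow]
        have e : p ^ K * n' = q - 1 := by rw [hq]; rfl
        rw [e]
        exact sub_eq_zero.mp h
      exact pow_prime_pow_eq_one hp hn' m' hpB hsB1 h'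
    · have hndvd : ¬ p ∣ q + 1 := by
        intro hd
        have h1 : p ∣ p ^ K * n' := Dvd.dvd.mul_right (dvd_pow_self p hK.ne') n'
        have h2 : p ∣ 2 := by
          have e : q + 1 = p ^ K * n' + 2 := by rw [hq]
          rw [e] at hd
          exact (Nat.dvd_add_right h1).mp hd
        have h3 : p = 2 := (Nat.prime_dvd_prime_iff_eq hp Nat.prime_two).mp h2
        exact hp2 h3
      have h' : sB ^ (p ^ 0 * (q + 1)) = 1 := by
        apply Subtype.ext
        rw [hcoe_pow, pow_zero, one_mul]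
        exact sub_eq_zero.mp h
      have h4 := pow_prime_pow_eq_one hp hndvd m' hpB hsB1 h'
      rw [pow_zero, pow_one] at h4
      rw [h4, one_pow]
  have hspow : s ^ (p ^ K) = 1 := by
    have := congrArg (fun b : B => (b : Ω)) hsBpow
    exact this
  -- primitive roots
  have hζΩ : IsPrimitiveRoot (ι ζ) (p ^ K) := hζ.map_of_injective hι
  haveI : NeZero (p ^ K) := ⟨(pow_pos hp.pos K).ne'⟩
  obtain ⟨j, hj, hjs⟩ := hζΩ.eq_pow_of_pow_eq_one hspow
  refine ⟨j, hj, hι ?_⟩
  have hs'eq : s' = (ι ζ) ^ (p ^ K - j) := by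
    have h1 : s * (ι ζ) ^ (p ^ K - j) = 1 := by
      rw [← hjs, ← pow_add, Nat.add_sub_cancel' hj.le, hζΩ.pow_eq_one]
    calc s' = s' * (s * (ι ζ) ^ (p ^ K - j)) := by rw [h1, mul_one]
      _ = (s * s') * (ι ζ) ^ (p ^ K - j) := by ring
      _ = (ι ζ) ^ (p ^ K - j) := by rw [hprod, one_mul]
  rw [map_add, map_pow, map_pow, ← hs'eq, hjs, hsum]

/-- **(NU) ⇒ type ψ.**  In the situation of `trace_eq_of_conj`, if `Σ` is not unipotent
(`tr Σ ≠ 2`), then `tr Σ = z + z'` where `z = ζ^j ≠ 1`, `z z' = 1`, `z ≠ z'`, `z^(p^K) = 1`, and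
the characteristic polynomial of `Σ` is `(X - z)(X - z')`. -/
theorem exists_type_of_conj {p q K n' : ℕ} (hp : p.Prime) (hp2 : p ≠ 2) (hK : 0 < K)
    (hq : q = p ^ K * n' + 1) (hn' : ¬ p ∣ n')
    (m : Ideal V) (hm : m ≠ ⊤) (hpm : (p : V) ∈ m)
    (Sg Φ : Matrix (Fin 2) (Fin 2) V) (hdet : Sg.det = 1) (hΦ : Φ.det ≠ 0)
    (hconj : Φ * Sg = Sg ^ q * Φ) (hSg : ∀ i j, (Sg - 1) i j ∈ m)
    (ζ : V) (hζ : IsPrimitiveRoot ζ (p ^ K)) (hNU : Sg.trace ≠ 2) :
    ∃ j : ℕ, 0 < j ∧ j < p ^ K ∧ ζ ^ j ≠ 1 ∧ ζ ^ j * ζ ^ (p ^ K - j) = 1 ∧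
      ζ ^ j ≠ ζ ^ (p ^ K - j) ∧ Sg.trace = ζ ^ j + ζ ^ (p ^ K - j) ∧
      Sg.charpoly = (X - C (ζ ^ j)) * (X - C (ζ ^ (p ^ K - j))) := by
  obtain ⟨j, hj, htr⟩ :=
    trace_eq_of_conj hp hp2 hK hq hn' m hm hpm Sg Φ hdet hΦ hconj hSg ζ hζ
  have hprod : ζ ^ j * ζ ^ (p ^ K - j) = 1 := by
    rw [← pow_add, Nat.add_sub_cancel' hj.le, hζ.pow_eq_one]
  have hj0 : 0 < j := by
    rcases Nat.eq_zero_or_pos j with h0 | h0
    · exfalso
      apply hNU
      rw [htr, h0, pow_zero, Nat.sub_zero, hζ.pow_eq_one]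
      norm_num
    · exact h0
  have hne1 : ζ ^ j ≠ 1 := fun h => by
    have := hζ.pow_ne_one_of_pos_of_lt hj0.ne' hj
    exact this h
  have hne : ζ ^ j ≠ ζ ^ (p ^ K - j) := by
    intro h
    -- then `ζ^(2j) = 1`, so `p^K ∣ 2j`, so `p^K ∣ j`
    have h2 : ζ ^ (2 * j) = 1 := by
      rw [two_mul, pow_add]
      nth_rewrite 2 [h]
      exact hprod
    have hdvd : p ^ K ∣ 2 * j := (hζ.pow_eq_one_iff_dvd _).mp h2
    have hcop : Nat.Coprime (p ^ K) 2 := by
      apply Nat.Coprime.pow_left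
      rw [Nat.coprime_primes hp Nat.prime_two]
      exact hp2
    have hdvd' : p ^ K ∣ j := hcop.dvd_of_dvd_mul_left hdvd
    exact absurd (Nat.le_of_dvd hj0 hdvd') (not_le.mpr hj)
  refine ⟨j, hj0, hj, hne1, hprod, hne, htr, ?_⟩
  rw [Matrix.charpoly_fin_two, hdet, htr]
  have e : (X - C (ζ ^ j)) * (X - C (ζ ^ (p ^ K - j))) =
      X ^ 2 - C (ζ ^ j + ζ ^ (p ^ K - j)) * X + C (ζ ^ j * ζ ^ (p ^ K - j)) := by
    rw [map_add, map_mul]
    ring
  rw [e, hprod]

end Main

end Fermat.Agent.S38.IA.H474
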