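/-
Row HARD (row 37 hard case, Ihara avoidance, single-sided route E2) — leaf TYPE (board §3.4),
matrix level.  helper474.  Mathlib only (on top of `TypePsi.lean`).  All proofs complete.

`Σ, Φ` 2×2 matrices over a domain `𝒪'`, `det Σ = 1`, `det Φ ≠ 0`, `Φ Σ = Σ^q Φ`, `Σ ≡ 1` modulo a
proper ideal `m' ∋ p`, `p` an odd prime dividing `q - 1`, `tr Σ ≠ 2` (`Σ` not unipotent), and the
coefficient ring `𝒪` (a domain in which `2` is a unit, mapping to `𝒪'`, `p ≠ 0` in `𝒪'`) contains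
the `p`-power roots of unity of order dividing `q - 1`.  THEN
* `Φ Σ = Σ Φ`                                             (`commute_of_conj`),
* there are `ζ ∈ 𝒪`, `ζ ≠ 1`, `ζ^(p^K) = 1`, `ζ^(q-1) = 1` and `δ ∈ 𝒪` with `2 δ ζ = ζ² - 1` such
  that the traceless coordinates `v` of `Σ` satisfy `Q(v) = v₀² + v₁ v₂ = δ²`, and all the minors
  `w_i v_j - w_j v_i` of the traceless coordinates `w` of `Φ` and `v` vanish (`type_leaf`).
-/
import Fermat.Agent.S38.IA.H474.TypePsi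

set_option autoImplicit false
set_option linter.style.haveILetI false
set_option linter.unusedSectionVars false

namespace Fermat.Agent.S38.IA.H474

open Matrix Polynomial

section Unipotent

variable {R : Type*} [CommRing R] [Nontrivial R]

/-- For a 2×2 matrix of determinant one: the characteristic polynomial is `(X - 1)²` iff the
trace is `2`. -/
theorem charpoly_eq_sq_iff_trace (M : Matrix (Fin 2) (Fin 2) R) (hdet : M.det = 1) :
    M.charpoly = (X - 1) ^ 2 ↔ M.trace = 2 := by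
  rw [Matrix.charpoly_fin_two, hdet]
  constructor
  · intro h
    have h1 : ((X : R[X]) ^ 2 - C M.trace * X + C 1).coeff 1 = (((X : R[X]) - 1) ^ 2).coeff 1 := by
      rw [h]
    have e1 : ((X : R[X]) ^ 2 - C M.trace * X + C 1).coeff 1 = - M.trace := by
      simp [Polynomial.coeff_X_pow, Polynomial.coeff_one]
    have e2 : (((X : R[X]) - 1) ^ 2).coeff 1 = -2 := by
      have : ((X : R[X]) - 1) ^ 2 = X ^ 2 - C 2 * X + C 1 := by
        rw [map_ofNat, map_one]; ring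
      rw [this]
      simp [Polynomial.coeff_X_pow, Polynomial.coeff_one]
    rw [e1, e2] at h1
    exact neg_injective h1
  · intro h
    rw [h, map_ofNat, map_one]
    ring

/-- For a 2×2 matrix of determinant one: `(M - 1)² = (tr M - 2) • M`. -/
theorem sub_one_sq_eq (M : Matrix (Fin 2) (Fin 2) R) (hdet : M.det = 1) :
    (M - 1) ^ 2 = (M.trace - 2) • M := by
  rw [Matrix.det_fin_two] at hdet
  ext i j
  fin_cases i <;> fin_cases j <;>
    simp [pow_two, Matrix.mul_apply, Fin.sum_univ_two, Matrix.trace_fin_two] <;>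
    first | linear_combination hdet | linear_combination -hdet | ring

end Unipotent

section Comm

variable {V : Type*} [CommRing V] [IsDomain V]

/-- A 2×2 matrix with characteristic polynomial `(X - s)(X - s')`, `s ≠ s'`, `s^q = s`,
`s'^q = s'` over a domain satisfies `M^q = M`. -/
theorem pow_eq_self_of_charpoly (M : Matrix (Fin 2) (Fin 2) V) (s s' : V) (hne : s ≠ s')
    (hchar : M.charpoly = (X - C s) * (X - C s')) (q : ℕ) (hs : s ^ q = s) (hs' : s' ^ q = s') :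
    M ^ q = M := by
  have h1 : (X - C s) ∣ (X ^ q - X : V[X]) := by
    rw [Polynomial.dvd_iff_isRoot]
    simp [hs]
  obtain ⟨g, hg⟩ := h1
  have h2 : g.IsRoot s' := by
    have h3 := congrArg (Polynomial.eval s') hg
    simp only [eval_sub, eval_pow, eval_X, eval_mul, eval_C, hs', sub_self] at h3
    rcases mul_eq_zero.mp h3.symm with h4 | h4
    · exact absurd (sub_eq_zero.mp h4).symm hne
    · exact h4
  obtain ⟨h, hh⟩ := Polynomial.dvd_iff_isRoot.mpr h2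
  have h5 : (X ^ q - X : V[X]) = M.charpoly * h := by
    rw [hg, hh, hchar]
    ring
  have h6 := congrArg (Polynomial.aeval M) h5
  rw [map_mul, Matrix.aeval_self_charpoly, zero_mul, map_sub, map_pow, aeval_X] at h6
  exact sub_eq_zero.mp h6

/-- **Commutation.**  In the situation of `exists_type_of_conj` (`Σ` not unipotent), `Φ` and `Σ`
commute. -/
theorem commute_of_conj {p q K n' : ℕ} (hp : p.Prime) (hp2 : p ≠ 2) (hK : 0 < K)
    (hq : q = p ^ K * n' + 1) (hn' : ¬ p ∣ n')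
    (m : Ideal V) (hm : m ≠ ⊤) (hpm : (p : V) ∈ m)
    (Sg Φ : Matrix (Fin 2) (Fin 2) V) (hdet : Sg.det = 1) (hΦ : Φ.det ≠ 0)
    (hconj : Φ * Sg = Sg ^ q * Φ) (hSg : ∀ i j, (Sg - 1) i j ∈ m)
    (ζ : V) (hζ : IsPrimitiveRoot ζ (p ^ K)) (hNU : Sg.trace ≠ 2) :
    Φ * Sg = Sg * Φ := by
  obtain ⟨j, _, _, _, hprod, hne, _, hchar⟩ :=
    exists_type_of_conj hp hp2 hK hq hn' m hm hpm Sg Φ hdet hΦ hconj hSg ζ hζ hNU
  have hpow : ∀ i : ℕ, (ζ ^ i) ^ q = ζ ^ i := by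
    intro i
    rw [hq, pow_succ, ← pow_mul, mul_comm i, mul_assoc, pow_mul, hζ.pow_eq_one, one_pow, one_mul]
  rw [hconj, pow_eq_self_of_charpoly Sg _ _ hne hchar q (hpow _) (hpow _)]

end Comm

section Roots

/-- A ring homomorphism from a domain to a ring in which `p ≠ 0` maps primitive `p^K`-th roots
of unity to primitive `p^K`-th roots of unity (no injectivity needed). -/
theorem isPrimitiveRoot_map_of_prime_ne_zero {A B : Type*} [CommRing A] [IsDomain A]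
    [CommRing B] (f : A →+* B) {p K : ℕ} (hp : p.Prime) (hp0 : (p : B) ≠ 0)
    {ζ : A} (hζ : IsPrimitiveRoot ζ (p ^ K)) : IsPrimitiveRoot (f ζ) (p ^ K) := by
  haveI : Fact p.Prime := ⟨hp⟩
  rcases Nat.eq_zero_or_pos K with hK | hK
  · subst hK
    rw [pow_zero] at hζ ⊢
    rw [IsPrimitiveRoot.one_right_iff] at hζ ⊢
    rw [hζ, map_one]
  obtain ⟨K', rfl⟩ : ∃ K', K = K' + 1 := ⟨K - 1, by omega⟩
  have h1 : (f ζ) ^ (p ^ (K' + 1)) = 1 := by rw [← map_pow, hζ.pow_eq_one, map_one]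
  rw [IsPrimitiveRoot.iff_orderOf]
  refine orderOf_eq_prime_pow ?_ h1
  intro h2
  have hη : IsPrimitiveRoot (ζ ^ (p ^ K')) p :=
    hζ.pow (pow_pos hp.pos _) (pow_succ p K')
  have h3 := hη.geom_sum_eq_zero hp.one_lt
  have h4 := congrArg f h3
  rw [map_sum, map_zero] at h4
  simp only [map_pow, h2, one_pow, Finset.sum_const, Finset.card_range, nsmul_eq_mul,
    mul_one] at h4
  exact hp0 h4

end Roots

section Coords

variable {R : Type*} [CommRing R]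

/-- `4 Q(v) = tr² - 4 det` for the traceless coordinates `v` (`2 v₀ = a - d`, `v₁ = b`,
`v₂ = c`) of a 2×2 matrix `[[a, b], [c, d]]`. -/
theorem four_mul_quad_eq (M : Matrix (Fin 2) (Fin 2) R) (v : Fin 3 → R)
    (hv : 2 * v 0 = M 0 0 - M 1 1 ∧ v 1 = M 0 1 ∧ v 2 = M 1 0) :
    4 * (v 0 ^ 2 + v 1 * v 2) = M.trace ^ 2 - 4 * M.det := by
  obtain ⟨h0, h1, h2⟩ := hv
  rw [Matrix.trace_fin_two, Matrix.det_fin_two, h1, h2]
  linear_combination (2 * v 0 + M 0 0 - M 1 1) * h0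

/-- If `N M = M N` then twice the minors `w_i v_j - w_j v_i` of the traceless coordinates `w` of
`N` and `v` of `M` vanish. -/
theorem two_mul_minor_eq_zero (M N : Matrix (Fin 2) (Fin 2) R) (v w : Fin 3 → R)
    (hv : 2 * v 0 = M 0 0 - M 1 1 ∧ v 1 = M 0 1 ∧ v 2 = M 1 0)
    (hw : 2 * w 0 = N 0 0 - N 1 1 ∧ w 1 = N 0 1 ∧ w 2 = N 1 0)
    (hcomm : N * M = M * N) (i j : Fin 3) : 2 * (w i * v j - w j * v i) = 0 := by
  obtain ⟨hv0, hv1, hv2⟩ := hv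
  obtain ⟨hw0, hw1, hw2⟩ := hw
  have e00 := congrFun (congrFun hcomm 0) 0
  have e01 := congrFun (congrFun hcomm 0) 1
  have e10 := congrFun (congrFun hcomm 1) 0
  simp only [Matrix.mul_apply, Fin.sum_univ_two] at e00 e01 e10
  fin_cases i <;> fin_cases j <;> simp only [Fin.zero_eta, Fin.mk_one, Fin.reduceFinMk]
  · ring
  · rw [hv1, hw1]
    linear_combination (M 0 1) * hw0 - (N 0 1) * hv0 + e01
  · rw [hv2, hw2]
    linear_combination (M 1 0) * hw0 - (N 1 0) * hv0 - e10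
  · rw [hv1, hw1]
    linear_combination -(M 0 1) * hw0 + (N 0 1) * hv0 - e01
  · ring
  · rw [hv1, hw1, hv2, hw2]
    linear_combination 2 * e00
  · rw [hv2, hw2]
    linear_combination -(M 1 0) * hw0 + (N 1 0) * hv0 + e10
  · rw [hv1, hw1, hv2, hw2]
    linear_combination -2 * e00
  · ring

end Coords

section Leaf

/-- **LEAF TYPE (board §3.4), matrix level.**  `𝒪 → 𝒪'` domains, `2` a unit of `𝒪`, `p` an odd
prime with `p ≠ 0` in `𝒪'`, `p ∣ q - 1`, `𝒪` contains the `p`-power roots of unity of order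
dividing `q - 1`; `Σ, Φ ∈ M₂(𝒪')` with `det Σ = 1`, `det Φ ≠ 0`, `Φ Σ = Σ^q Φ`, `Σ ≡ 1` modulo a
proper ideal `m' ∋ p`, `tr Σ ≠ 2`; `v`, `w` the traceless coordinates of `Σ`, `Φ`.  Then there are
`δ, ζ ∈ 𝒪` as in `IsTypeValue p q δ` (`S38/IA/Spec2.lean`) with `Q(v) = δ²`, and all the minors
`w_i v_j - w_j v_i` vanish. -/
theorem type_leaf {𝒪 𝒪' : Type*} [CommRing 𝒪] [IsDomain 𝒪] [CommRing 𝒪'] [IsDomain 𝒪']
    (f : 𝒪 →+* 𝒪') {p q : ℕ} (hp : p.Prime) (hp2 : p ≠ 2) (hq1 : 1 < q) (hpq : p ∣ q - 1)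
    (h2 : IsUnit (2 : 𝒪))
    (hroots : ∀ m : ℕ, p ^ m ∣ q - 1 → ∃ ζ : 𝒪, IsPrimitiveRoot ζ (p ^ m))
    (m' : Ideal 𝒪') (hm' : m' ≠ ⊤) (hpm : (p : 𝒪') ∈ m') (hp0 : (p : 𝒪') ≠ 0)
    (Sg Φ : Matrix (Fin 2) (Fin 2) 𝒪') (hdet : Sg.det = 1) (hΦ : Φ.det ≠ 0)
    (hconj : Φ * Sg = Sg ^ q * Φ) (hSg : ∀ i j, (Sg - 1) i j ∈ m') (hNU : Sg.trace ≠ 2)
    (v w : Fin 3 → 𝒪')
    (hv : 2 * v 0 = Sg 0 0 - Sg 1 1 ∧ v 1 = Sg 0 1 ∧ v 2 = Sg 1 0)
    (hw : 2 * w 0 = Φ 0 0 - Φ 1 1 ∧ w 1 = Φ 0 1 ∧ w 2 = Φ 1 0) :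
    ∃ δ ζ : 𝒪, ζ ≠ 1 ∧ (∃ m : ℕ, ζ ^ p ^ m = 1) ∧ ζ ^ (q - 1) = 1 ∧ 2 * δ * ζ = ζ ^ 2 - 1 ∧
      v 0 ^ 2 + v 1 * v 2 = f δ ^ 2 ∧ ∀ i j : Fin 3, w i * v j - w j * v i = 0 := by
  -- `q - 1 = p^K n'`, `p ∤ n'`, `K > 0`
  obtain ⟨K, n', hn', hqK⟩ :=
    Nat.exists_eq_pow_mul_and_not_dvd (n := q - 1) (by omega) p hp.ne_one
  have hK : 0 < K := by
    rcases Nat.eq_zero_or_pos K with h0 | h0
    · exfalso
      rw [h0, pow_zero, one_mul] at hqK
      exact hn' (hqK ▸ hpq)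
    · exact h0
  have hq : q = p ^ K * n' + 1 := by omega
  obtain ⟨ζ₀, hζ₀⟩ := hroots K (Dvd.intro _ hqK.symm)
  have hζ' : IsPrimitiveRoot (f ζ₀) (p ^ K) := isPrimitiveRoot_map_of_prime_ne_zero f hp hp0 hζ₀
  obtain ⟨j, hj0, hj, _, _, _, htr, _⟩ :=
    exists_type_of_conj hp hp2 hK hq hn' m' hm' hpm Sg Φ hdet hΦ hconj hSg (f ζ₀) hζ' hNU
  have hcomm : Φ * Sg = Sg * Φ :=
    commute_of_conj hp hp2 hK hq hn' m' hm' hpm Sg Φ hdet hΦ hconj hSg (f ζ₀) hζ' hNU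
  -- `2 ≠ 0` in `𝒪'`
  have h2' : (2 : 𝒪') ≠ 0 := by
    intro h
    apply hm'
    rw [Ideal.eq_top_iff_one]
    obtain ⟨k, hk⟩ := hp.eq_two_or_odd'.resolve_left hp2
    have e : (p : 𝒪') = 1 := by
      rw [hk]
      push_cast
      rw [h, zero_mul, zero_add]
    rw [← e]
    exact hpm
  have hprod : ζ₀ ^ j * ζ₀ ^ (p ^ K - j) = 1 := by
    rw [← pow_add, Nat.add_sub_cancel' hj.le, hζ₀.pow_eq_one]
  obtain ⟨u, hu⟩ := h2
  refine ⟨↑u⁻¹ * (ζ₀ ^ j - ζ₀ ^ (p ^ K - j)), ζ₀ ^ j, hζ₀.pow_ne_one_of_pos_of_lt hj0.ne' hj,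
    ⟨K, ?_⟩, ?_, ?_, ?_, ?_⟩
  · rw [← pow_mul, mul_comm, pow_mul, hζ₀.pow_eq_one, one_pow]
  · rw [hqK, ← pow_mul, mul_comm j, mul_assoc, pow_mul, hζ₀.pow_eq_one, one_pow]
  · have e1 : (2 : 𝒪) * ↑u⁻¹ = 1 := by rw [← hu, Units.mul_inv]
    linear_combination (ζ₀ ^ j * (ζ₀ ^ j - ζ₀ ^ (p ^ K - j))) * e1 - hprod
  · have e1 : (2 : 𝒪') * f ↑u⁻¹ = 1 := by
      have : (2 : 𝒪) * ↑u⁻¹ = 1 := by rw [← hu, Units.mul_inv]
      have := congrArg f this
      rwa [map_mul, map_ofNat, map_one] at this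
    have e2 : f (ζ₀ ^ j) * f (ζ₀ ^ (p ^ K - j)) = 1 := by rw [← map_mul, hprod, map_one]
    have e3 := four_mul_quad_eq Sg v hv
    rw [hdet, htr] at e3
    have e4 : (4 : 𝒪') * (v 0 ^ 2 + v 1 * v 2) =
        4 * f (↑u⁻¹ * (ζ₀ ^ j - ζ₀ ^ (p ^ K - j))) ^ 2 := by
      rw [e3, map_mul, map_sub, map_pow, map_pow]
      rw [map_pow, map_pow] at e2
      linear_combination (4 : 𝒪') * e2 -
        ((f ζ₀ ^ j - f ζ₀ ^ (p ^ K - j)) ^ 2 * (2 * f ↑u⁻¹ + 1)) * e1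
    have h4 : (4 : 𝒪') ≠ 0 := by
      have : (4 : 𝒪') = 2 * 2 := by norm_num
      rw [this]
      exact mul_ne_zero h2' h2'
    exact mul_left_cancel₀ h4 e4
  · intro i k
    have := two_mul_minor_eq_zero Sg Φ v w hv hw hcomm i k
    exact (mul_eq_zero.mp this).resolve_left h2'

end Leaf

end Fermat.Agent.S38.IA.H474
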