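/-
Row HARD (row 37 hard case, Ihara avoidance, single-sided route E2) — leaf TYPE (board §3.4),
in the frozen vocabulary of `S38/IA/Spec2.lean` (`LocAmb`, `vVar`, `wVar`, `typeIdeal`,
`IsTypeValue`, `IsTracelessCoords`): the (TYPE) clause of `IAGalStatement`.   helper474.
All proofs complete; the mathematics is Mathlib-only (`TypePsi.lean`, `TypeLeaf.lean`).

* `type_clause`      : matrices `Σ_q, Φ_q ∈ M₂(𝒪')` whose traceless coordinates are the values of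
                       a point `x : P →ₐ[𝒪] 𝒪'` at `v_{q,j}`, `w_{q,j}`;
* `type_clause_end`  : endomorphisms `Σ_q, Φ_q` of a free rank-2 module over `R` with a basis, a
                       map `γ : P →ₐ[𝒪] R` with `IsTracelessCoords`, and a point `y : R →ₐ[𝒪] 𝒪'`
                       (the exact shape of the last clause of `IAGalStatement`).
Conclusion of both: `∃ δ : Piv → 𝒪, (∀ q, IsTypeValue p q (δ q)) ∧ ∀ a ∈ typeIdeal 𝒪 g δ, … a = 0`.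
-/
import Fermat.Agent.S38.IA.Spec2
import Fermat.Agent.S38.IA.H474.TypeLeaf

set_option autoImplicit false
set_option linter.style.haveILetI false
set_option linter.unusedSectionVars false

namespace Fermat.Agent.S38.IA.H474

open Matrix Polynomial IsLocalRing Fermat.Agent.S38.IA

/-- In a local ring whose maximal ideal contains the odd prime `p`, `2` is a unit. -/
theorem isUnit_two_of_odd_prime_mem {A : Type*} [CommRing A] [IsLocalRing A] {p : ℕ}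
    (hp : p.Prime) (hp2 : p ≠ 2) (hpA : (p : A) ∈ maximalIdeal A) : IsUnit (2 : A) := by
  rw [← IsLocalRing.notMem_maximalIdeal]
  intro h
  obtain ⟨k, hk⟩ := hp.eq_two_or_odd'.resolve_left hp2
  have h1 : (1 : A) ∈ maximalIdeal A := by
    have e : (1 : A) = (p : A) - 2 * (k : A) := by
      rw [hk]
      push_cast
      ring
    rw [e]
    exact Ideal.sub_mem _ hpA (Ideal.mul_mem_right _ _ h)
  exact (Ideal.ne_top_iff_one _).mp (IsLocalRing.maximalIdeal.isMaximal A).ne_top h1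

/-- **LEAF TYPE, frozen vocabulary, matrix form.** -/
theorem type_clause (p : ℕ) [Fact p.Prime] (hp2 : p ≠ 2)
    (𝒪 : Type) [CommRing 𝒪] [IsDomain 𝒪] [IsLocalRing 𝒪] (hp𝒪 : (p : 𝒪) ∈ maximalIdeal 𝒪)
    (Piv : Finset ℕ) (hPiv : ∀ q ∈ Piv, q.Prime ∧ p ∣ q - 1)
    (hroots : ∀ q ∈ Piv, ∀ m : ℕ, p ^ m ∣ q - 1 → ∃ ζ : 𝒪, IsPrimitiveRoot ζ (p ^ m))
    (g : ℕ)
    (𝒪' : Type) [CommRing 𝒪'] [IsDomain 𝒪'] [Algebra 𝒪 𝒪']
    (m' : Ideal 𝒪') (hm' : m' ≠ ⊤) (hpm : (p : 𝒪') ∈ m') (hp0 : (p : 𝒪') ≠ 0)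
    (x : LocAmb 𝒪 Piv g →ₐ[𝒪] 𝒪')
    (Sg Φ : Piv → Matrix (Fin 2) (Fin 2) 𝒪')
    (hdet : ∀ q, (Sg q).det = 1) (hΦ : ∀ q, (Φ q).det ≠ 0)
    (hconj : ∀ q : Piv, Φ q * Sg q = Sg q ^ (q : ℕ) * Φ q)
    (hSg : ∀ q i j, (Sg q - 1) i j ∈ m') (hNU : ∀ q, (Sg q).trace ≠ 2)
    (hv : ∀ q, 2 * x (vVar 𝒪 g q 0) = Sg q 0 0 - Sg q 1 1 ∧
      x (vVar 𝒪 g q 1) = Sg q 0 1 ∧ x (vVar 𝒪 g q 2) = Sg q 1 0)
    (hw : ∀ q, 2 * x (wVar 𝒪 g q 0) = Φ q 0 0 - Φ q 1 1 ∧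
      x (wVar 𝒪 g q 1) = Φ q 0 1 ∧ x (wVar 𝒪 g q 2) = Φ q 1 0) :
    ∃ δ : Piv → 𝒪, (∀ q : Piv, IsTypeValue p (q : ℕ) (δ q)) ∧
      ∀ a ∈ typeIdeal 𝒪 g δ, x a = 0 := by
  have hp : p.Prime := Fact.out
  have h2 : IsUnit (2 : 𝒪) := isUnit_two_of_odd_prime_mem hp hp2 hp𝒪
  have key : ∀ q : Piv, ∃ δ ζ : 𝒪, ζ ≠ 1 ∧ (∃ m : ℕ, ζ ^ p ^ m = 1) ∧ ζ ^ ((q : ℕ) - 1) = 1 ∧
      2 * δ * ζ = ζ ^ 2 - 1 ∧
      x (vVar 𝒪 g q 0) ^ 2 + x (vVar 𝒪 g q 1) * x (vVar 𝒪 g q 2) = algebraMap 𝒪 𝒪' δ ^ 2 ∧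
      ∀ i j : Fin 3, x (wVar 𝒪 g q i) * x (vVar 𝒪 g q j) -
        x (wVar 𝒪 g q j) * x (vVar 𝒪 g q i) = 0 := by
    intro q
    exact type_leaf (algebraMap 𝒪 𝒪') hp hp2 (hPiv q q.2).1.one_lt (hPiv q q.2).2 h2
      (hroots q q.2) m' hm' hpm hp0 (Sg q) (Φ q) (hdet q) (hΦ q) (hconj q) (hSg q) (hNU q)
      (fun j => x (vVar 𝒪 g q j)) (fun j => x (wVar 𝒪 g q j)) (hv q) (hw q)
  choose δ ζ hζ1 hζp hζq hδ hQ hmin using key
  refine ⟨δ, fun q => ⟨ζ q, hζ1 q, hζp q, hζq q, hδ q⟩, ?_⟩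
  have hle : typeIdeal 𝒪 g δ ≤ RingHom.ker (x : LocAmb 𝒪 Piv g →+* 𝒪') := by
    unfold typeIdeal
    rw [Ideal.span_le]
    rintro a (⟨q, rfl⟩ | ⟨q, i, j, rfl⟩)
    · change (x : LocAmb 𝒪 Piv g →+* 𝒪') _ = 0
      have hC : x (MvPowerSeries.C (δ q)) = algebraMap 𝒪 𝒪' (δ q) := by
        have : (MvPowerSeries.C (δ q) : LocAmb 𝒪 Piv g) =
            algebraMap 𝒪 (LocAmb 𝒪 Piv g) (δ q) := by
          rw [MvPowerSeries.algebraMap_apply, Algebra.algebraMap_self, RingHom.id_apply]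
        rw [this, AlgHom.commutes]
      rw [AlgHom.coe_toRingHom, map_sub, map_pow, hC]
      unfold qV
      rw [map_add, map_pow, map_mul, hQ q, sub_self]
    · change (x : LocAmb 𝒪 Piv g →+* 𝒪') _ = 0
      unfold minor
      rw [AlgHom.coe_toRingHom, map_sub, map_mul, map_mul]
      exact hmin q i j
  intro a ha
  exact hle ha

/-- **LEAF TYPE, frozen vocabulary, endomorphism form** (the shape of the last clause of
`IAGalStatement`): `γ : P →ₐ[𝒪] R` carries `v_{q,j}`, `w_{q,j}` to the traceless coordinates of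
`Σ_q, Φ_q ∈ End_R(V)` in the basis `bas`; `y : R →ₐ[𝒪] 𝒪'` a point with values in a domain `𝒪'`
(`p ≠ 0` in `𝒪'`, `p ∈ m' ≠ ⊤`) at which `Σ_q ≡ 1 mod m'` and `Σ_q` is not unipotent. -/
theorem type_clause_end (p : ℕ) [Fact p.Prime] (hp2 : p ≠ 2)
    (𝒪 : Type) [CommRing 𝒪] [IsDomain 𝒪] [IsLocalRing 𝒪] (hp𝒪 : (p : 𝒪) ∈ maximalIdeal 𝒪)
    (Piv : Finset ℕ) (hPiv : ∀ q ∈ Piv, q.Prime ∧ p ∣ q - 1)
    (hroots : ∀ q ∈ Piv, ∀ m : ℕ, p ^ m ∣ q - 1 → ∃ ζ : 𝒪, IsPrimitiveRoot ζ (p ^ m))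
    (g : ℕ)
    {R : Type} [CommRing R] [Algebra 𝒪 R] (γ : LocAmb 𝒪 Piv g →ₐ[𝒪] R)
    {V : Type} [AddCommGroup V] [Module R V] [Module.Free R V] [Module.Finite R V]
    (bas : Module.Basis (Fin 2) R V) (Sg Φ : Piv → Module.End R V)
    (hv : ∀ q : Piv, IsTracelessCoords bas (Sg q) (fun j => γ (vVar 𝒪 g q j)))
    (hw : ∀ q : Piv, IsTracelessCoords bas (Φ q) (fun j => γ (wVar 𝒪 g q j)))
    (hdet : ∀ q, LinearMap.det (Sg q) = 1)
    (hconj : ∀ q : Piv, Φ q * Sg q = Sg q ^ (q : ℕ) * Φ q)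
    (𝒪' : Type) [CommRing 𝒪'] [IsDomain 𝒪'] [Algebra 𝒪 𝒪'] (y : R →ₐ[𝒪] 𝒪')
    (m' : Ideal 𝒪') (hm' : m' ≠ ⊤) (hpm : (p : 𝒪') ∈ m') (hp0 : (p : 𝒪') ≠ 0)
    (hΦ : ∀ q, y (LinearMap.det (Φ q)) ≠ 0)
    (hSg : ∀ q i j, y ((LinearMap.toMatrix bas bas (Sg q) - 1) i j) ∈ m')
    (hNU : ∀ q, (LinearMap.charpoly (Sg q)).map (y : R →+* 𝒪') ≠ ((X : 𝒪'[X]) - 1) ^ 2) :
    ∃ δ : Piv → 𝒪, (∀ q : Piv, IsTypeValue p (q : ℕ) (δ q)) ∧
      ∀ a ∈ typeIdeal 𝒪 g δ, y (γ a) = 0 := by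
  have hmapdet : ∀ f : Module.End R V,
      ((LinearMap.toMatrix bas bas f).map (y : R →+* 𝒪')).det = y (LinearMap.det f) := by
    intro f
    have e : ((LinearMap.toMatrix bas bas f).map (y : R →+* 𝒪')).det =
        (y : R →+* 𝒪') (LinearMap.toMatrix bas bas f).det := (RingHom.map_det _ _).symm
    rw [e, LinearMap.det_toMatrix]
    rfl
  have hdetS : ∀ q, ((LinearMap.toMatrix bas bas (Sg q)).map (y : R →+* 𝒪')).det = 1 := by
    intro q
    rw [hmapdet, hdet q, map_one]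
  have h := type_clause p hp2 𝒪 hp𝒪 Piv hPiv hroots g 𝒪' m' hm' hpm hp0 (y.comp γ)
    (fun q => (LinearMap.toMatrix bas bas (Sg q)).map (y : R →+* 𝒪'))
    (fun q => (LinearMap.toMatrix bas bas (Φ q)).map (y : R →+* 𝒪'))
    hdetS
    (fun q => by rw [hmapdet]; exact hΦ q)
    (fun q => by
      rw [← Matrix.map_mul, ← LinearMap.toMatrix_mul, hconj q, LinearMap.toMatrix_mul,
        Matrix.map_mul, ← LinearMap.toMatrix_pow]
      congr 1
      exact map_pow (RingHom.mapMatrix (y : R →+* 𝒪')) _ _)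
    (fun q i j => by
      have h1 := hSg q i j
      have e : ((LinearMap.toMatrix bas bas (Sg q)).map (y : R →+* 𝒪') - 1) i j =
          y ((LinearMap.toMatrix bas bas (Sg q) - 1) i j) := by
        rw [Matrix.sub_apply, Matrix.sub_apply, Matrix.map_apply, map_sub]
        by_cases hij : i = j
        · subst hij
          rw [Matrix.one_apply_eq, Matrix.one_apply_eq, map_one]
          rfl
        · rw [Matrix.one_apply_ne hij, Matrix.one_apply_ne hij, map_zero]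
          rfl
      rw [e]
      exact h1)
    (fun q => by
      intro htr
      apply hNU q
      rw [← LinearMap.charpoly_toMatrix (Sg q) bas, ← Matrix.charpoly_map]
      exact (charpoly_eq_sq_iff_trace _ (hdetS q)).mpr htr)
    (fun q => by
      obtain ⟨h0, h1, h2⟩ := hv q
      refine ⟨?_, ?_, ?_⟩
      · have := congrArg y h0
        rw [map_mul, map_sub, map_ofNat] at this
        simpa using this
      · have := congrArg y h1
        simpa using this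
      · have := congrArg y h2
        simpa using this)
    (fun q => by
      obtain ⟨h0, h1, h2⟩ := hw q
      refine ⟨?_, ?_, ?_⟩
      · have := congrArg y h0
        rw [map_mul, map_sub, map_ofNat] at this
        simpa using this
      · have := congrArg y h1
        simpa using this
      · have := congrArg y h2
        simpa using this)
  obtain ⟨δ, hδ, hker⟩ := h
  exact ⟨δ, hδ, fun a ha => hker a ha⟩

end Fermat.Agent.S38.IA.H474
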