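/-
Row 37 (S38/S43), hard case, route T (Ihara avoidance) — leaf DIM-S: the Krull dimension of a
power series ring.  helper474.  Mathlib only.  All proofs complete.

* `ringKrullDim_powerSeries` : `dim R⟦X⟧ = dim R + 1` for a noetherian local ring `R`;
* `ringKrullDim_mvPowerSeries_fin` : `dim R⟦X₁,…,X_n⟧ = dim R + n`;
* `ringKrullDim_mvPowerSeries_dvr` : `dim 𝒪⟦X₁,…,X_n⟧ = n + 1` for a discrete valuation ring `𝒪`
  (the value of `dim S_∞` needed by the support engine: `hfin`, `hdimA`, `hdimB`).
-/
import Mathlib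

set_option autoImplicit false
set_option linter.style.haveILetI false
set_option linter.unusedSectionVars false

namespace Fermat.Agent.S38.IA.H474

open IsLocalRing

section PowerSeries

variable (R : Type*) [CommRing R] [IsLocalRing R] [IsNoetherianRing R]

theorem powerSeries_ker_constantCoeff :
    RingHom.ker (PowerSeries.constantCoeff (R := R)) = Ideal.span {(PowerSeries.X : PowerSeries R)} := by
  ext φ
  rw [RingHom.mem_ker, Ideal.mem_span_singleton, PowerSeries.X_dvd_iff]

/-- `R⟦X⟧ ⧸ (X) ≃ R`. -/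
noncomputable def powerSeriesQuotXEquiv :
    (PowerSeries R ⧸ Ideal.span {(PowerSeries.X : PowerSeries R)}) ≃+* R :=
  (Ideal.quotEquivOfEq (powerSeries_ker_constantCoeff R).symm).trans
    (RingHom.quotientKerEquivOfSurjective PowerSeries.constantCoeff_surj)

/-- `dim R⟦X⟧ = dim R + 1` for a noetherian local ring `R`. -/
theorem ringKrullDim_powerSeries : ringKrullDim (PowerSeries R) = ringKrullDim R + 1 := by
  haveI : IsNoetherianRing (PowerSeries R) :=
    inferInstanceAs (IsNoetherianRing (MvPowerSeries Unit R))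
  have hreg : IsSMulRegular (PowerSeries R) (PowerSeries.X : PowerSeries R) := by
    intro a b hab
    exact PowerSeries.X_mul_cancel hab
  have hmem : (PowerSeries.X : PowerSeries R) ∈ Ring.jacobson (PowerSeries R) := by
    rw [Ring.jacobson_eq_sInf_isMaximal, Ideal.mem_sInf]
    intro M hM
    have hM' : M.IsMaximal := hM
    rw [IsLocalRing.eq_maximalIdeal hM', IsLocalRing.mem_maximalIdeal, mem_nonunits_iff,
      PowerSeries.isUnit_iff_constantCoeff]
    simp
  rw [← ringKrullDim_quotient_span_singleton_succ_eq_ringKrullDim_of_mem_jacobson hreg hmem,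
    ringKrullDim_eq_of_ringEquiv (powerSeriesQuotXEquiv R)]

end PowerSeries

section MvPowerSeries

variable (R : Type*) [CommRing R] [IsLocalRing R] [IsNoetherianRing R]

/-- `dim R⟦X₁,…,X_n⟧ = dim R + n` for a noetherian local ring `R`. -/
theorem ringKrullDim_mvPowerSeries_fin (n : ℕ) :
    ringKrullDim (MvPowerSeries (Fin n) R) = ringKrullDim R + n := by
  induction n with
  | zero =>
    rw [ringKrullDim_eq_of_ringEquiv
      (MvPowerSeries.isEmptyEquiv (σ := Fin 0) (R := R)).toRingEquiv]
    simp
  | succ n ih =>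
    rw [ringKrullDim_eq_of_ringEquiv (MvPowerSeries.finSuccEquiv R n).toRingEquiv,
      ringKrullDim_powerSeries, ih, add_assoc]
    congr 1

end MvPowerSeries

section DVR

variable (O : Type*) [CommRing O] [IsDomain O] [IsDiscreteValuationRing O]

/-- `dim 𝒪⟦X₁,…,X_n⟧ = n + 1` for a discrete valuation ring `𝒪`. -/
theorem ringKrullDim_mvPowerSeries_dvr (n : ℕ) :
    ringKrullDim (MvPowerSeries (Fin n) O) = ((n + 1 : ℕ) : WithBot ℕ∞) := by
  rw [ringKrullDim_mvPowerSeries_fin, IsDiscreteValuationRing.ringKrullDim_eq_one]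
  push_cast
  rw [add_comm]

theorem ringKrullDim_mvPowerSeries_dvr_lt_top (n : ℕ) :
    ringKrullDim (MvPowerSeries (Fin n) O) < ⊤ :=
  ringKrullDim_lt_top

end DVR

end Fermat.Agent.S38.IA.H474
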