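/-
Row 37 (S38/S43), hard case, route T (Ihara avoidance) — piece P2: SPEC of the output of
two-problem patching (`Patched2`, in coordinates).  Mathlib only.  helper474.
The consumer is `S38/IA/H474/Unpatch.lean` (`faithful_of_patched2`): patched data + the
architect's support engine give "`M₀ / 𝔭 M₀` is a faithful `𝒪`-module".

Dictionary.  `𝒪` coefficients, `S = 𝒪⟦y₁..y_h⟧` with augmentation `ε : S → 𝒪`, section
`σ : 𝒪 → S`; `R` the ambient ring (a power series ring over the unrestricted framed local ring);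
`A = R^χ_∞`, `B = R¹_∞` with `α : R → A`, `β : R ↠ B` (e.g. `A = R ⧸ r_χ`, `B = R ⧸ r₁`);
`ρ0 : R → M_d(𝒪)` the action on the finite-level module `M₀ = 𝒪^d` (type `1`, level `L`).
-/
import Mathlib

set_option autoImplicit false
set_option linter.style.haveILetI false
set_option linter.unusedSectionVars false

namespace Fermat.Agent.S38.IA.H474

open Matrix

section Mat

variable {S : Type*} [CommRing S] {d : ℕ}

/-- All entries of the matrix lie in the ideal `J`. -/
def MatMem (J : Ideal S) (M : Matrix (Fin d) (Fin d) S) : Prop := ∀ i j, M i j ∈ J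

theorem MatMem.add {J : Ideal S} {M N : Matrix (Fin d) (Fin d) S} (hM : MatMem J M)
    (hN : MatMem J N) : MatMem J (M + N) := fun i j => J.add_mem (hM i j) (hN i j)

theorem MatMem.sub {J : Ideal S} {M N : Matrix (Fin d) (Fin d) S} (hM : MatMem J M)
    (hN : MatMem J N) : MatMem J (M - N) := fun i j => J.sub_mem (hM i j) (hN i j)

theorem MatMem.mul_left {J : Ideal S} {M : Matrix (Fin d) (Fin d) S} (hM : MatMem J M)
    (N : Matrix (Fin d) (Fin d) S) : MatMem J (N * M) := fun i j => by
  rw [Matrix.mul_apply]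
  exact J.sum_mem fun k _ => J.mul_mem_left _ (hM k j)

theorem MatMem.mul_right {J : Ideal S} {M : Matrix (Fin d) (Fin d) S} (hM : MatMem J M)
    (N : Matrix (Fin d) (Fin d) S) : MatMem J (M * N) := fun i j => by
  rw [Matrix.mul_apply]
  exact J.sum_mem fun k _ => Ideal.mul_mem_right _ J (hM i k)

theorem MatMem.mulVec_mem {J : Ideal S} {M : Matrix (Fin d) (Fin d) S} (hM : MatMem J M)
    (x : Fin d → S) (i : Fin d) : M.mulVec x i ∈ J := by
  rw [Matrix.mulVec, dotProduct]
  exact J.sum_mem fun k _ => Ideal.mul_mem_right _ J (hM i k)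

end Mat

/-- **Output of two-problem patching, in coordinates.**  Both patched modules are `S^d`;
`A`, `B` act through matrices, `S` acts through `A`, `B`; the two actions are intertwined
modulo `ϖ` by a matrix `D` which is invertible modulo `ϖ`; and the `B`-side reduces, modulo the
augmentation `ε`, to the finite-level action `ρ0`. -/
structure Patched2 {O S R A B : Type*} [CommRing O] [CommRing S] [CommRing R] [CommRing A]
    [CommRing B] (α : R →+* A) (β : R →+* B) (ϖ : S) (ε : S →+* O) (d : ℕ)
    (ρ0 : R →+* Matrix (Fin d) (Fin d) O) where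
  /-- the `S`-algebra structure of `A = R^χ_∞` -/
  ιA : S →+* A
  /-- the `S`-algebra structure of `B = R¹_∞` -/
  ιB : S →+* B
  /-- the action of `A` on `M^χ_∞ = S^d` -/
  ρA : A →+* Matrix (Fin d) (Fin d) S
  /-- the action of `B` on `M¹_∞ = S^d` -/
  ρB : B →+* Matrix (Fin d) (Fin d) S
  ρA_ι : ∀ s : S, ρA (ιA s) = s • (1 : Matrix (Fin d) (Fin d) S)
  ρB_ι : ∀ s : S, ρB (ιB s) = s • (1 : Matrix (Fin d) (Fin d) S)
  /-- the intertwiner `M¹_∞ / ϖ → M^χ_∞ / ϖ` -/
  D : Matrix (Fin d) (Fin d) S
  /-- a right inverse of `D` modulo `ϖ` -/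
  D' : Matrix (Fin d) (Fin d) S
  D_mul_D' : MatMem (Ideal.span {ϖ}) (D * D' - 1)
  intertwine : ∀ r : R, MatMem (Ideal.span {ϖ}) (D * ρB (β r) - ρA (α r) * D)
  /-- un-patching: `M¹_∞ / 𝔞 = M₀` compatibly with the action of `R` -/
  unpatch : ∀ r : R, (ρB (β r)).map ε = ρ0 r

section Module

variable {A S : Type*} [CommRing A] [CommRing S] {d : ℕ}

/-- The `A`-module structure on `S^d` defined by a matrix representation. -/
@[reducible] def matModule (ρ : A →+* Matrix (Fin d) (Fin d) S) : Module A (Fin d → S) where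
  smul a x := (ρ a).mulVec x
  one_smul x := by
    change (ρ 1).mulVec x = x
    rw [map_one, Matrix.one_mulVec]
  mul_smul a b x := by
    change (ρ (a * b)).mulVec x = (ρ a).mulVec ((ρ b).mulVec x)
    rw [map_mul, Matrix.mulVec_mulVec]
  smul_zero a := Matrix.mulVec_zero _
  smul_add a x y := Matrix.mulVec_add _ _ _
  add_smul a b x := by
    change (ρ (a + b)).mulVec x = (ρ a).mulVec x + (ρ b).mulVec x
    rw [map_add, Matrix.add_mulVec]
  zero_smul x := by
    change (ρ 0).mulVec x = 0
    rw [map_zero, Matrix.zero_mulVec]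

end Module

end Fermat.Agent.S38.IA.H474
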